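import Fermat.Agent.CurvePointStatistics.Sieve
import Mathlib.RingTheory.Polynomial.Bernstein

/-!
# The distribution of the rational points of smooth plane curves

Each of the `q² + q + 1` rational points is a zero independently, with chance
`(q + 1)/(q² + q + 1)`.
-/

set_option autoImplicit false
set_option linter.style.openClassical false
set_option linter.style.haveILetI false
set_option linter.unusedSectionVars false

noncomputable section

open scoped Classical Nat Topology LinearAlgebra.Projectivization
open Filter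

namespace FA.CurvePointStatistics

open MvPolynomial FA.PlaneBertini FA.ProjBertini

variable {k : Type*} [Field k] [Fintype k]

instance : Fintype (ℙ k (Fin 3 → k)) := Fintype.ofFinite _

/-- The rational points of a form. -/
def zeroSet (F : MvPolynomial (Fin 3) k) : Finset (ℙ k (Fin 3 → k)) :=
  Finset.univ.filter fun x => eval x.rep F = 0

variable (k) in
/-- The number of rational points of the plane. -/
def numPts : ℕ := Fintype.card k ^ 2 + Fintype.card k + 1

theorem card_proj : Fintype.card (ℙ k (Fin 3 → k)) = numPts k := by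
  rw [← Nat.card_eq_fintype_card, natCard_proj, numPts]

/-- The prescription of a set of rational points, in the charts. -/
def chartSet (A : Finset (ℙ k (Fin 3 → k))) (j : Fin 3) (Q : Pt k) : Prop :=
  ∃ q : RatIdx k j, embPt q = Q ∧ toProj ⟨j, q⟩ ∈ A

theorem chartSet_embPt (A : Finset (ℙ k (Fin 3 → k))) {j : Fin 3} (q : RatIdx k j) :
    chartSet A j (embPt q) ↔ toProj ⟨j, q⟩ ∈ A :=
  ⟨fun ⟨_, h, hA⟩ => embPt_injective j h ▸ hA, fun h => ⟨q, rfl, h⟩⟩

theorem ratCond_iff (A : Finset (ℙ k (Fin 3 → k))) (d : ℕ) (g : MvPolynomial (Fin 2) k) :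
    RatCond (chartSet A) d g ↔ zeroSet (homog 2 d g) = A := by
  simp only [RatCond, filter_fixPts_one, Finset.forall_mem_image, Finset.mem_univ, true_implies,
    chartSet_embPt, zeroSet, Finset.ext_iff, Finset.mem_filter, true_and]
  constructor
  · intro h x
    obtain ⟨⟨j, q⟩, rfl⟩ := toProj_bijective.2 x
    exact (eval_rep_toProj_eq_zero_iff (homog_isHomogeneous 2 d g) ⟨j, q⟩).trans (@h j q)
  · intro h j q
    exact (eval_rep_toProj_eq_zero_iff (homog_isHomogeneous 2 d g) ⟨j, q⟩).symm.trans
      (h (toProj ⟨j, q⟩))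

theorem prod_weight (A : Finset (ℙ k (Fin 3 → k))) :
    ∏ j, ∏ Q ∈ (fixPts k 1).filter (Stratum j), weight k (chartSet A j Q) =
      theta k ^ A.card * (1 - theta k) ^ (numPts k - A.card) := by
  have h : ∀ j, ∏ Q ∈ (fixPts k 1).filter (Stratum j), weight k (chartSet A j Q) =
      ∏ q : RatIdx k j, weight k (toProj ⟨j, q⟩ ∈ A) := fun j => by
    rw [filter_fixPts_one, Finset.prod_image fun q _ q' _ h => embPt_injective j h]
    simp only [chartSet_embPt]
  simp only [h]
  rw [← Fintype.prod_sigma (fun x : Σ j, RatIdx k j => weight k (toProj x ∈ A)),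
    Fintype.prod_equiv (Equiv.ofBijective _ toProj_bijective)
      (fun x => weight k (toProj x ∈ A)) (fun x => weight k (x ∈ A)) fun x => rfl]
  rw [← Finset.prod_sdiff (Finset.subset_univ A), mul_comm,
    Finset.prod_congr rfl fun x hx =>
      (by unfold weight; exact if_pos hx : weight k (x ∈ A) = theta k),
    Finset.prod_congr rfl fun x hx =>
      (by unfold weight; exact if_neg (Finset.mem_sdiff.mp hx).2 :
        weight k (x ∈ A) = 1 - theta k),
    Finset.prod_const, Finset.prod_const, Finset.card_univ_sdiff, card_proj]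

/-- **Prescribed rational points**, as a share of all forms. -/
theorem tendsto_proportion_zeroSet (A : Finset (ℙ k (Fin 3 → k))) :
    Tendsto (fun d => proportion d (fun g => SmoothCharts d g ∧ zeroSet (homog 2 d g) = A)) atTop
      (𝓝 (zetaFactor k * (theta k ^ A.card * (1 - theta k) ^ (numPts k - A.card)))) := by
  have h := tendsto_proportion_ratCond (chartSet A)
  rw [prod_weight] at h
  simpa only [ratCond_iff] using h

theorem zetaFactor_pos : 0 < zetaFactor k := Finset.prod_pos fun j _ => by
  refine sub_pos.mpr (inv_lt_one_of_one_lt₀ (one_lt_pow₀ ?_ (by omega)))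
  exact_mod_cast Fintype.one_lt_card

variable (k) in
/-- The share among the smooth forms. -/
def smoothShare (C : MvPolynomial (Fin 3) k → Prop) (d : ℕ) : ℝ :=
  proportion d (fun g => SmoothCharts d g ∧ C (homog 2 d g)) /
    proportion d (SmoothCharts (k := k) d)

/-- **The theorem of Bucur, David, Feigon and Lalín.** -/
theorem tendsto_smoothShare_zeroSet (A : Finset (ℙ k (Fin 3 → k))) :
    Tendsto (smoothShare k fun F => zeroSet F = A) atTop
      (𝓝 (theta k ^ A.card * (1 - theta k) ^ (numPts k - A.card))) := by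
  have h := (tendsto_proportion_zeroSet A).div (tendsto_proportion_smoothCharts (k := k))
    (zetaFactor_pos (k := k)).ne'
  rwa [mul_div_cancel_left₀ _ (zetaFactor_pos (k := k)).ne'] at h

theorem proportion_eq_sum {ι : Type*} (S : Finset ι) (f : MvPolynomial (Fin 2) k → ι) (d : ℕ)
    (s : MvPolynomial (Fin 2) k → Prop) :
    proportion d (fun g => s g ∧ f g ∈ S) = ∑ i ∈ S, proportion d (fun g => s g ∧ f g = i) := by
  haveI := Fintype.ofFinite (Poly k d)
  simp only [proportion, Nat.card_eq_fintype_card, Fintype.card_subtype, ← Finset.sum_div,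
    ← Nat.cast_sum]
  congr 2
  rw [Finset.card_eq_sum_card_fiberwise (f := fun g : Poly k d => f g.1) (t := S)
    fun g hg => by simp only [Finset.coe_filter, Set.mem_ofPred_eq] at hg; exact hg.2.2]
  refine Finset.sum_congr rfl fun i hi => ?_
  rw [Finset.filter_filter]
  congr 1
  exact Finset.filter_congr fun g _ => ⟨fun h => ⟨h.1.1, h.2⟩, fun h => ⟨⟨h.1, h.2 ▸ hi⟩, h.2⟩⟩

/-- **The binomial law.** -/
theorem tendsto_smoothShare_card (m : ℕ) :
    Tendsto (smoothShare k fun F => (zeroSet F).card = m) atTop
      (𝓝 ((numPts k).choose m * theta k ^ m * (1 - theta k) ^ (numPts k - m))) := by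
  have h : Tendsto (fun d => ∑ A ∈ Finset.powersetCard m (Finset.univ : Finset (ℙ k (Fin 3 → k))),
      smoothShare k (fun F => zeroSet F = A) d) atTop
      (𝓝 (∑ A ∈ Finset.powersetCard m (Finset.univ : Finset (ℙ k (Fin 3 → k))),
        theta k ^ A.card * (1 - theta k) ^ (numPts k - A.card))) :=
    tendsto_finsetSum _ fun A _ => tendsto_smoothShare_zeroSet A
  rw [Finset.sum_congr rfl fun A hA => by rw [(Finset.mem_powersetCard.mp hA).2],
    Finset.sum_const, Finset.card_powersetCard, Finset.card_univ, card_proj, nsmul_eq_mul,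
    ← mul_assoc] at h
  refine h.congr fun d => ?_
  simp only [smoothShare]
  rw [← Finset.sum_div, ← proportion_eq_sum]
  congr 2
  funext g
  simp [Finset.mem_powersetCard]

theorem sum_mul_binomial (N : ℕ) (t : ℝ) :
    ∑ m ∈ Finset.range (N + 1), (m : ℝ) * (N.choose m * t ^ m * (1 - t) ^ (N - m)) = N * t := by
  have h := congrArg (Polynomial.eval t) (bernsteinPolynomial.sum_smul ℝ N)
  simpa [bernsteinPolynomial, Polynomial.eval_finsetSum, nsmul_eq_mul] using h

/-- **The mean number of rational points tends to `q + 1`.** -/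
theorem tendsto_mean_points :
    Tendsto (fun d => ∑ m ∈ Finset.range (numPts k + 1),
      (m : ℝ) * smoothShare k (fun F => (zeroSet F).card = m) d) atTop
      (𝓝 ((Fintype.card k : ℝ) + 1)) := by
  have h := tendsto_finsetSum (Finset.range (numPts k + 1))
    fun m _ => (tendsto_smoothShare_card (k := k) m).const_mul (m : ℝ)
  rw [sum_mul_binomial] at h
  convert h using 2
  rw [numPts, theta]
  push_cast
  field_simp

/-- **Smooth curves with any prescribed set of rational points.** -/
theorem eventually_exists_zeroSet (A : Finset (ℙ k (Fin 3 → k))) :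
    ∀ᶠ d : ℕ in atTop, ∃ F : MvPolynomial (Fin 3) k, F.IsHomogeneous d ∧
      (∀ P : Fin 3 → AlgebraicClosure k, P ≠ 0 → ¬ FormSingularAt P F) ∧ zeroSet F = A := by
  have hpos : 0 < zetaFactor k * (theta k ^ A.card * (1 - theta k) ^ (numPts k - A.card)) :=
    mul_pos zetaFactor_pos (mul_pos (pow_pos theta_mem.1 _) (pow_pos (sub_pos.mpr theta_mem.2) _))
  filter_upwards [(tendsto_proportion_zeroSet A).eventually (lt_mem_nhds hpos)] with d hd
  by_contra! hno
  refine hd.ne' ?_
  rw [proportion, Nat.card_eq_zero.mpr (Or.inl ⟨fun g => ?_⟩), Nat.cast_zero, zero_div]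
  have hF := homog_isHomogeneous (k := k) 2 d g.1.1
  have h := smoothCharts_iff hF
  rw [deh_homog 2 ((mem_restrictTotalDegree _ _ _).mp g.1.2)] at h
  exact hno _ hF (h.mp g.2.1) g.2.2

end FA.CurvePointStatistics
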