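import Fermat.Agent.ProjBertini.Main
import Mathlib.LinearAlgebra.Projectivization.Cardinality

/-!
# The rational points of the projective plane, in the charts

A rational point has coordinates `1` at its last nonzero place and fixed by Frobenius.
-/

set_option autoImplicit false
set_option linter.style.openClassical false
set_option linter.style.haveILetI false
set_option linter.unusedSectionVars false

noncomputable section

open scoped Classical

namespace FA.CurvePointStatistics

open MvPolynomial FA.PlaneBertini FA.ProjBertini

variable {k : Type*} [Field k] [Fintype k]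

variable (k) in
/-- The rational points of the stratum at `j`. -/
abbrev RatIdx (j : Fin 3) : Type _ := {q : Fin 2 → k // ∀ i, j < j.succAbove i → q i = 0}

/-- A rational point as a point of a chart. -/
def embPt {j : Fin 3} (q : RatIdx k j) : Pt k := algebraMap k (AlgebraicClosure k) ∘ q.1

theorem embPt_injective (j : Fin 3) : Function.Injective (embPt (k := k) (j := j)) :=
  fun _ _ h => Subtype.ext <| funext fun i =>
    (algebraMap k (AlgebraicClosure k)).injective (congrFun h i)

/-- The Frobenius fixed points of a stratum are the rational ones. -/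
theorem filter_fixPts_one (j : Fin 3) :
    (fixPts k 1).filter (Stratum j) = Finset.univ.image (embPt (k := k) (j := j)) := by
  ext Q
  simp only [Finset.mem_filter, mem_fixPts one_ne_zero, Function.IsPeriodicPt, Function.IsFixedPt,
    Function.iterate_one, Finset.mem_image, Finset.mem_univ, true_and]
  constructor
  · rintro ⟨hQ, hst⟩
    have hne : (Polynomial.X ^ Fintype.card k ^ 1 - Polynomial.X :
        Polynomial (AlgebraicClosure k)) ≠ 0 :=
      FiniteField.X_pow_card_pow_sub_X_ne_zero (AlgebraicClosure k) one_ne_zero Fintype.one_lt_card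
    have himage : Finset.univ.image (algebraMap k (AlgebraicClosure k)) =
        ((Polynomial.X ^ Fintype.card k ^ 1 - Polynomial.X :
          Polynomial (AlgebraicClosure k)).roots).toFinset := by
      refine Finset.eq_of_subset_of_card_le (fun x hx => ?_) (le_of_eq ?_)
      · obtain ⟨a, -, rfl⟩ := Finset.mem_image.mp hx
        rw [Multiset.mem_toFinset, Polynomial.mem_roots hne]
        simp [← map_pow, FiniteField.pow_card]
      · rw [card_roots_frobenius one_ne_zero, pow_one, Finset.card_image_of_injective _
          (algebraMap k (AlgebraicClosure k)).injective, Finset.card_univ]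
    have hmem : ∀ i, ∃ a, algebraMap k (AlgebraicClosure k) a = Q i := fun i => by
      have h : Q i ∈ Finset.univ.image (algebraMap k (AlgebraicClosure k)) := by
        rw [himage, Multiset.mem_toFinset, Polynomial.mem_roots hne]
        simp only [Polynomial.IsRoot, Polynomial.eval_sub, Polynomial.eval_pow, Polynomial.eval_X,
          pow_one, sub_eq_zero]
        exact congrFun hQ i
      obtain ⟨a, -, ha⟩ := Finset.mem_image.mp h
      exact ⟨a, ha⟩
    choose q hq using hmem
    refine ⟨⟨q, fun i hi => (algebraMap k (AlgebraicClosure k)).injective ?_⟩, funext hq⟩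
    rw [hq, hst i hi, map_zero]
  · rintro ⟨q, rfl⟩
    refine ⟨funext fun i => ?_, fun i hi => by simp [embPt, q.2 i hi]⟩
    simp only [frobPt, embPt, Function.comp_apply, ← map_pow, FiniteField.pow_card]

theorem degPt_eq_one_iff (Q : Pt k) : degPt k Q = 1 ↔ Q ∈ fixPts k 1 := by
  rw [mem_fixPts_iff_dvd one_ne_zero, Nat.dvd_one]

theorem repPt_eq_self {Q : Pt k} (h : degPt k Q = 1) : repPt Q = Q := by
  obtain ⟨a, ha⟩ := Finset.card_eq_one.mp ((card_orbitPt Q).trans h)
  have h1 := repPt_mem Q
  have h2 := self_mem_orbitPt Q
  rw [ha, Finset.mem_singleton] at h1 h2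
  rw [h1, h2]

/-- The chosen representatives of degree one are all the rational points. -/
theorem filter_repSetOn_degPt (j : Fin 3) {m : ℕ} (hm : m ≠ 0) :
    (repSetOn k (Stratum j) m).filter (fun Q => degPt k Q = 1) =
      (fixPts k 1).filter (Stratum j) := by
  ext Q
  simp only [Finset.mem_filter, degPt_eq_one_iff]
  refine ⟨fun ⟨h1, h2⟩ => ⟨h2, (mem_repSetOn (stratum_stable j) hm h1).2⟩,
    fun ⟨h1, h2⟩ => ⟨?_, h1⟩⟩
  have hd := (degPt_eq_one_iff Q).mpr h1
  refine Finset.mem_image.mpr ⟨Q, Finset.mem_filter.mpr ⟨?_, h2⟩, repPt_eq_self hd⟩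
  rw [mem_fixPts_iff_dvd hm, hd]
  exact one_dvd m

theorem insertNth_ne_zero (j : Fin 3) (q : Fin 2 → k) : (Fin.insertNth j 1 q : Fin 3 → k) ≠ 0 :=
  fun h => one_ne_zero (α := k) (by simpa using congrFun h j)

/-- A rational point of a stratum as a point of the projective plane. -/
def toProj (x : Σ j, RatIdx k j) : Projectivization k (Fin 3 → k) :=
  Projectivization.mk k (Fin.insertNth x.1 1 x.2.1) (insertNth_ne_zero _ _)

theorem insertNth_of_lt {j l : Fin 3} (q : RatIdx k j) (h : j < l) :
    (Fin.insertNth j 1 q.1 : Fin 3 → k) l = 0 := by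
  induction l using Fin.succAboveCases j with
  | x => exact absurd h (lt_irrefl _)
  | p i => rw [Fin.insertNth_apply_succAbove, q.2 i h]

theorem toProj_bijective : Function.Bijective (toProj (k := k)) := by
  constructor
  · rintro ⟨i, q⟩ ⟨j, q'⟩ h
    obtain ⟨a, ha⟩ := (Projectivization.mk_eq_mk_iff' k _ _ _ _).mp h
    have hij : i = j := by
      rcases lt_trichotomy i j with h1 | h1 | h1
      · have h2 := congrFun ha j
        have h3 := congrFun ha i
        simp only [Pi.smul_apply, smul_eq_mul, Fin.insertNth_apply_same,
          insertNth_of_lt q h1] at h2 h3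
        rw [mul_one] at h2
        rw [h2, zero_mul] at h3
        exact absurd h3 zero_ne_one
      · exact h1
      · have h2 := congrFun ha i
        simp only [Pi.smul_apply, smul_eq_mul, Fin.insertNth_apply_same, insertNth_of_lt q' h1,
          mul_zero] at h2
        exact absurd h2 zero_ne_one
    subst hij
    have ha1 : a = 1 := by simpa using congrFun ha i
    rw [ha1, one_smul] at ha
    have hq : q = q' := Subtype.ext <| funext fun l => by
      simpa using (congrFun ha (i.succAbove l)).symm
    rw [hq]
  · intro x
    induction x using Projectivization.ind with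
    | _ v hv =>
      obtain ⟨l, hl⟩ := Function.ne_iff.mp hv
      set S := Finset.univ.filter fun i => v i ≠ 0
      have hne : S.Nonempty := ⟨l, Finset.mem_filter.mpr ⟨Finset.mem_univ _, hl⟩⟩
      set j := S.max' hne
      have hj : v j ≠ 0 := (Finset.mem_filter.mp (S.max'_mem hne)).2
      refine ⟨⟨j, fun i => v (j.succAbove i) / v j, fun i hi => ?_⟩,
        (Projectivization.mk_eq_mk_iff' k _ _ _ _).mpr ⟨(v j)⁻¹, ?_⟩⟩
      · rw [div_eq_zero_iff]
        refine Or.inl (by_contra fun hne' => ?_)
        exact absurd (S.le_max' _ (Finset.mem_filter.mpr ⟨Finset.mem_univ _, hne'⟩)) hi.not_ge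
      · funext i
        induction i using Fin.succAboveCases j with
        | x => simp [hj]
        | p i => simp [div_eq_inv_mul]

theorem natCard_proj :
    Nat.card (Projectivization k (Fin 3 → k)) = Fintype.card k ^ 2 + Fintype.card k + 1 := by
  rw [Projectivization.card_of_finrank k _ (Module.finrank_fin_fun k), Nat.card_eq_fintype_card,
    Finset.sum_range_succ, Finset.sum_range_succ, Finset.sum_range_one]
  ring

/-- Vanishing at a rational point, read in its chart. -/
theorem eval_rep_toProj_eq_zero_iff {d : ℕ} {F : MvPolynomial (Fin 3) k} (hF : F.IsHomogeneous d)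
    (x : Σ j, RatIdx k j) :
    eval (toProj x).rep F = 0 ↔ aeval (embPt x.2) (deh x.1 F) = 0 := by
  obtain ⟨a, ha⟩ := Projectivization.exists_smul_eq_mk_rep k
    (Fin.insertNth x.1 1 x.2.1 : Fin 3 → k) (insertNth_ne_zero _ _)
  have h2 : aeval (embPt x.2) (deh x.1 F) =
      algebraMap k (AlgebraicClosure k) (eval (Fin.insertNth x.1 1 x.2.1 : Fin 3 → k) F) := by
    rw [aeval_deh, ← MvPolynomial.coe_aeval_eq_eval]
    show _ = (Algebra.ofId k (AlgebraicClosure k))
      (aeval (Fin.insertNth x.1 1 x.2.1 : Fin 3 → k) F)
    rw [comp_aeval_apply]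
    congr 1
    congr 1
    funext i
    induction i using Fin.succAboveCases x.1 <;> simp [embPt, Algebra.ofId_apply]
  rw [toProj, ← ha, h2, Units.smul_def, ← MvPolynomial.coe_aeval_eq_eval]
  simp only [RingHom.coe_coe, aeval_smul_form hF, map_eq_zero, mul_eq_zero,
    pow_ne_zero d a.ne_zero, false_or]
  rfl

end FA.CurvePointStatistics
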