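import Fermat.Agent.CurvePointStatistics.RationalPoints

/-!
# Prescribing the rational points of a smooth curve

At a rational point the jets allowed are the nonzero ones, and a share `(q + 1)/(q² + q + 1)` of
them has value zero.
-/

set_option autoImplicit false
set_option linter.style.openClassical false
set_option linter.style.haveILetI false
set_option linter.unusedSectionVars false

noncomputable section

open scoped Classical Nat Topology
open Filter

namespace FA.CurvePointStatistics

open MvPolynomial FA.PlaneBertini FA.ProjBertini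

variable {k : Type*} [Field k] [Fintype k]

variable (k) in
/-- The chance that a smooth curve passes through a given rational point. -/
def theta : ℝ :=
  ((Fintype.card k : ℝ) + 1) / ((Fintype.card k : ℝ) ^ 2 + Fintype.card k + 1)

theorem theta_mem : 0 < theta k ∧ theta k < 1 := by
  have hq : (1 : ℝ) < Fintype.card k := by exact_mod_cast Fintype.one_lt_card
  refine ⟨by unfold theta; positivity, ?_⟩
  rw [theta, div_lt_one (by positivity)]
  nlinarith

variable (k) in
/-- The weight of a rational point required, or forbidden. -/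
def weight (P : Prop) : ℝ := if P then theta k else 1 - theta k

/-- The allowed jets. -/
def JetCond (χ : Fin 3 → Pt k → Prop) (j : Fin 3) (Q : Pt k) (w : Fin 3 → valueAlg k Q) : Prop :=
  w ≠ 0 ∧ (degPt k Q = 1 → (w 0 = 0 ↔ χ j Q))

theorem natCard_jetCond (χ : Fin 3 → Pt k → Prop) (j : Fin 3) (Q : Pt k) :
    (Nat.card {w // JetCond χ j Q w} : ℝ) / (Fintype.card k : ℝ) ^ (3 * degPt k Q) =
      (1 - ((Fintype.card k : ℝ) ^ (3 * degPt k Q))⁻¹) *
        (if degPt k Q = 1 then weight k (χ j Q) else 1) := by
  set q : ℝ := (Fintype.card k : ℝ)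
  have hq : 1 < q := by simp only [q]; exact_mod_cast Fintype.one_lt_card
  have hbase : (1 - (q ^ (3 * degPt k Q))⁻¹) =
      (Nat.card {w : Fin 3 → valueAlg k Q // w ≠ 0} : ℝ) / q ^ (3 * degPt k Q) := by
    rw [natCard_jet_ne_zero, sub_div, div_self (by positivity), one_div]
  by_cases hd : degPt k Q = 1
  swap
  · rw [if_neg hd, mul_one, hbase, Nat.card_congr (Equiv.subtypeEquivRight fun w =>
      show JetCond χ j Q w ↔ w ≠ 0 from
        ⟨fun h => h.1, fun h => ⟨h, fun h1 => absurd h1 hd⟩⟩)]
  haveI := Fintype.ofFinite (valueAlg k Q)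
  have hcard : Fintype.card (valueAlg k Q) = Fintype.card k := by
    rw [Module.card_eq_pow_finrank (K := k), finrank_valueAlg, hd, pow_one]
  rw [if_pos hd, hd, mul_one, Nat.card_eq_fintype_card, Fintype.card_subtype]
  unfold weight theta
  by_cases hχ : χ j Q
  · have hset : Finset.univ.filter (JetCond χ j Q) =
        (Fintype.piFinset fun i : Fin 3 => if i = 0 then ({0} : Finset (valueAlg k Q))
          else Finset.univ).erase 0 := by
      ext w
      simp [JetCond, hd, hχ, Fintype.mem_piFinset, Fin.forall_fin_succ]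
    rw [if_pos hχ, hset,
      Finset.card_erase_of_mem (by simp [Fintype.mem_piFinset, Fin.forall_fin_succ]),
      Fintype.card_piFinset, Fin.prod_univ_three]
    simp only [if_true, show (1 : Fin 3) ≠ 0 by decide, show (2 : Fin 3) ≠ 0 by decide, if_false,
      Finset.card_singleton, Finset.card_univ, hcard]
    rw [Nat.cast_sub (Nat.one_le_iff_ne_zero.mpr (by simp))]
    push_cast
    field_simp
    ring
  · have hset : Finset.univ.filter (JetCond χ j Q) =
        Fintype.piFinset fun i : Fin 3 =>
          if i = 0 then (Finset.univ : Finset (valueAlg k Q)).erase 0 else Finset.univ := by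
      ext w
      simp only [Finset.mem_filter, Finset.mem_univ, true_and, JetCond, hd, hχ, iff_false,
        true_implies, Fintype.mem_piFinset]
      constructor
      · rintro ⟨-, h0⟩ i
        split
        · subst i; simpa using h0
        · exact Finset.mem_univ _
      · intro h
        have h0 : w 0 ≠ 0 := by simpa using h 0
        exact ⟨fun e => h0 (by rw [e]; rfl), h0⟩
    rw [if_neg hχ, hset, Fintype.card_piFinset, Fin.prod_univ_three]
    simp only [if_true, show (1 : Fin 3) ≠ 0 by decide, show (2 : Fin 3) ≠ 0 by decide, if_false,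
      Finset.card_erase_of_mem (Finset.mem_univ _), Finset.card_univ, hcard]
    rw [Nat.cast_mul, Nat.cast_mul, Nat.cast_sub Fintype.card_pos]
    push_cast
    field_simp
    ring

/-- The rational zeros are the prescribed ones. -/
def RatCond (χ : Fin 3 → Pt k → Prop) (d : ℕ) (g : MvPolynomial (Fin 2) k) : Prop :=
  ∀ j, ∀ Q ∈ (fixPts k 1).filter (Stratum j),
    (aeval Q (deh j (homog 2 d g)) = 0 ↔ χ j Q)

theorem jetCond_chartJet_iff (χ : Fin 3 → Pt k → Prop) (j : Fin 3) (d : ℕ) (Q : Pt k)
    (g : MvPolynomial (Fin 2) k) :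
    JetCond χ j Q (chartJet j d Q g) ↔ ¬ SingularAt Q (deh j (homog 2 d g)) ∧
      (degPt k Q = 1 → (aeval Q (deh j (homog 2 d g)) = 0 ↔ χ j Q)) := by
  have h0 : ((chartJet j d Q g 0 : valueAlg k Q) : AlgebraicClosure k) =
      aeval Q (deh j (homog 2 d g)) := by
    rw [chartJet_apply, coe_jet]
    rfl
  rw [JetCond, ne_eq, chartJet_eq_zero_iff, ← h0, ZeroMemClass.coe_eq_zero]

theorem forall_jetCond_iff (χ : Fin 3 → Pt k → Prop) {m : ℕ} (hm : m ≠ 0) (d : ℕ)
    (g : MvPolynomial (Fin 2) k) :
    (∀ j, ∀ Q ∈ repSetOn k (Stratum j) m, JetCond χ j Q (chartJet j d Q g)) ↔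
      (∀ j, ∀ Q ∈ fixPts k m, Stratum j Q → ¬ SingularAt Q (deh j (homog 2 d g))) ∧
        RatCond χ d g := by
  simp only [jetCond_chartJet_iff]
  constructor
  · intro h
    refine ⟨fun j => (forall_repSetOn_iff (stratum_stable j) hm _).mp fun Q hQ => (h j Q hQ).1,
      fun j Q hQ => ?_⟩
    rw [← filter_repSetOn_degPt j hm, Finset.mem_filter] at hQ
    exact (h j Q hQ.1).2 hQ.2
  · intro h j Q hQ
    refine ⟨(forall_repSetOn_iff (stratum_stable j) hm _).mpr (h.1 j) Q hQ, fun hd => h.2 j Q ?_⟩
    rw [← filter_repSetOn_degPt j hm]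
    exact Finset.mem_filter.mpr ⟨hQ, hd⟩

/-- **The sieve with prescribed rational points.** -/
theorem tendsto_proportion_ratCond (χ : Fin 3 → Pt k → Prop) :
    Tendsto (fun d => proportion d (fun g => SmoothCharts d g ∧ RatCond χ d g)) atTop
      (𝓝 (zetaFactor k * ∏ j, ∏ Q ∈ (fixPts k 1).filter (Stratum j), weight k (χ j Q))) := by
  refine tendsto_proportion_smooth_and (RatCond χ) (L := fun r =>
    (∏ j : Fin 3, eulerProdOn k (Stratum j) (r !)) *
      ∏ j, ∏ Q ∈ (fixPts k 1).filter (Stratum j), weight k (χ j Q))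
    (tendsto_eulerProd_strata.mul_const _) (Eventually.of_forall fun r => ?_)
  obtain ⟨D, hD⟩ := exists_proportion_chartConditions
    (S := fun j => repSetOn k (Stratum j) (r !))
    (fun j Q hQ => (mem_repSetOn (stratum_stable j) r.factorial_ne_zero hQ).2)
    (fun j => repSetOn_inequivalent) (JetCond χ)
  refine ⟨D, fun d hd => ?_⟩
  have h := hD d hd
  simp only [forall_jetCond_iff χ r.factorial_ne_zero, natCard_jetCond, Finset.prod_mul_distrib]
    at h
  rw [h]
  congr 1
  refine Finset.prod_congr rfl fun j _ => ?_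
  rw [← filter_repSetOn_degPt j r.factorial_ne_zero, Finset.prod_filter]

end FA.CurvePointStatistics
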